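/-
GATE-N / S48 J1-port, P3 leaf S48-P3-HN1Q1 (helper62), part 1: **moderate growth is preserved by the
Hecke translates** `F ↦ F ∘ α_x`, `α_x = rep1 ℓ σ x` (helper10's `Γ₁`-twisted representatives
`[1 j; 0 ℓ]`, `σ · diag(ℓ, 1)`), and the holomorphic Hecke norm
`normHol ℓ σ A = ∏ₓ A ∘ α_x ∈ Hol` with `algebraMap (normHol A) = normG (rep1 ℓ σ) (algebraMap A)`
(helper49's `HeckeMerG.normG`).

Everything here is `Γ`-free: the only combinatorial input is the LEVEL ONE case of helper10's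
`rep1_mul` (`α_x g = g'' α_{x'}` for every `g ∈ SL(2,ℤ)`).
-/
import Fermat.Agent.GJ.J2.Dict.FieldGen
import Fermat.Agent.DS.P3.HeckeMerG
import Fermat.Agent.DS.N0.HeckeGamma1

set_option autoImplicit false
set_option linter.unusedSectionVars false

open UpperHalfPlane Complex ModularForm CongruenceSubgroup
open scoped MatrixGroups

noncomputable section

namespace Fermat.Agent.DS.P3.HN1Q1

open Fermat.Agent.S24_helper82 Fermat.Agent.GJ.HeckeMer Fermat.Agent.GJ.Dict.FieldGen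
open Fermat.Agent.DS.N0 Fermat.Agent.DS.P3.HeckeMerG
open Matrix.SpecialLinearGroup Function.Periodic

/-! ### Growth at `i∞` under a substitution scaling the imaginary part -/

/-- a substitution `p` with `im (p z) = c · im z`, `c > 0`, keeps moderate growth at `i∞`
(with a new exponent). -/
theorem exists_bdd_comp_of_im_eq {N : ℕ} [NeZero N] {F : ℍ → ℂ} {m : ℕ}
    (hF : IsBoundedAtImInfty fun z : ℍ => qParam (N : ℝ) (z : ℂ) ^ m * F z)
    {c : ℝ} (hc : 0 < c) (p : ℍ → ℍ) (hp : ∀ z : ℍ, (p z).im = c * z.im) :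
    ∃ m' : ℕ, IsBoundedAtImInfty fun z : ℍ => qParam (N : ℝ) (z : ℂ) ^ m' * F (p z) := by
  obtain ⟨M, A, hMA⟩ := isBoundedAtImInfty_iff.mp hF
  refine ⟨⌈c * m⌉₊, isBoundedAtImInfty_iff.mpr ⟨M, A / c, fun z hz => ?_⟩⟩
  have hN : (0 : ℝ) < N := Nat.cast_pos.mpr (NeZero.pos N)
  have hz' : A ≤ (p z).im := by
    rw [hp z]
    have h1 := (div_le_iff₀ hc).mp hz
    linarith [mul_comm c z.im]
  have h1 := hMA (p z) hz'
  rw [norm_mul, norm_pow] at h1 ⊢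
  have hq : ‖qParam (N : ℝ) (z : ℂ)‖ ^ ⌈c * m⌉₊ ≤ ‖qParam (N : ℝ) ((p z : ℍ) : ℂ)‖ ^ m := by
    rw [norm_qParam, norm_qParam, ← Real.exp_nat_mul, ← Real.exp_nat_mul, Real.exp_le_exp]
    have h2 : ((p z : ℍ) : ℂ).im = c * (z : ℂ).im := hp z
    rw [h2]
    have h3 : c * m ≤ (⌈c * m⌉₊ : ℝ) := Nat.le_ceil _
    have hzpos : 0 < (z : ℂ).im := z.im_pos
    have hpi := Real.pi_pos
    have h4 : 0 ≤ 2 * Real.pi * (z : ℂ).im / N := by positivity
    have h5 : (⌈c * m⌉₊ : ℝ) * (-2 * Real.pi * (z : ℂ).im / N)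
        = -((⌈c * m⌉₊ : ℝ) * (2 * Real.pi * (z : ℂ).im / N)) := by ring
    have h6 : (m : ℝ) * (-2 * Real.pi * (c * (z : ℂ).im) / N)
        = -((c * m) * (2 * Real.pi * (z : ℂ).im / N)) := by ring
    rw [h5, h6, neg_le_neg_iff]
    exact mul_le_mul_of_nonneg_right h3 h4
  calc ‖qParam (N : ℝ) (z : ℂ)‖ ^ ⌈c * m⌉₊ * ‖F (p z)‖
      ≤ ‖qParam (N : ℝ) ((p z : ℍ) : ℂ)‖ ^ m * ‖F (p z)‖ :=
        mul_le_mul_of_nonneg_right hq (norm_nonneg _)
    _ ≤ M := h1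

/-! ### The Hecke representatives -/

section Rep

variable {ℓ : ℕ} [Fact ℓ.Prime]

theorem ell_ne_zero : ℓ ≠ 0 := (Fact.out : ℓ.Prime).ne_zero

theorem im_heckeDiagMatrix_smul (z : ℍ) : (heckeDiagMatrix ℓ • z).im = (ℓ : ℝ) * z.im := by
  have h := congrArg Complex.im (coe_heckeDiagMatrix_smul (ell_ne_zero (ℓ := ℓ)) z)
  rw [show ((ℓ : ℂ) * (z : ℂ)).im = (ℓ : ℝ) * (z : ℂ).im by simp] at h
  exact h

theorem im_heckeMatrix_smul (j : ℕ) (z : ℍ) :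
    (heckeMatrix ℓ j • z).im = (ℓ : ℝ)⁻¹ * z.im := by
  have h := congrArg Complex.im (coe_heckeMatrix_smul (ell_ne_zero (ℓ := ℓ)) j z)
  have h2 : ((((z : ℂ) + (j : ℂ)) / (ℓ : ℂ))).im = (ℓ : ℝ)⁻¹ * (z : ℂ).im := by
    rw [Complex.div_natCast_im, Complex.add_im, Complex.natCast_im, add_zero, inv_mul_eq_div]
  rw [h2] at h
  exact h

theorem det_rep1_pos (σ : SL(2, ℤ)) (x : OnePoint (ZMod ℓ)) : 0 < (rep1 ℓ σ x).det.val := by
  induction x using OnePoint.rec with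
  | infty =>
    rw [rep1_infty]
    exact det_mul_pos (det_mapGL_pos σ) (det_heckeDiagMatrix_pos ℓ)
  | coe j =>
    rw [rep1_coe]
    exact det_heckeMatrix_pos ℓ j.val

/-- the imaginary part is scaled by the untwisted representatives -/
theorem exists_im_rep1_one_smul (x : OnePoint (ZMod ℓ)) :
    ∃ c : ℝ, 0 < c ∧ ∀ z : ℍ, (rep1 ℓ 1 x • z).im = c * z.im := by
  have hℓ : (0 : ℝ) < ℓ := Nat.cast_pos.mpr (Fact.out : ℓ.Prime).pos
  induction x using OnePoint.rec with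
  | infty =>
    refine ⟨ℓ, hℓ, fun z => ?_⟩
    rw [rep1_infty, map_one, one_mul]
    exact im_heckeDiagMatrix_smul z
  | coe j =>
    refine ⟨(ℓ : ℝ)⁻¹, inv_pos.mpr hℓ, fun z => ?_⟩
    rw [rep1_coe]
    exact im_heckeMatrix_smul j.val z

theorem mem_Gamma1_one (g : SL(2, ℤ)) : g ∈ Gamma1 1 := by
  rw [mem_Gamma1_iff_dvd_and]
  exact ⟨by simp, Subsingleton.elim _ _⟩

/-- **level one commutation**: `α_x g = g'' α_{x'}` for every `g ∈ SL(2,ℤ)` -/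
theorem rep1_one_mul (g : SL(2, ℤ)) (x : OnePoint (ZMod ℓ)) :
    ∃ (g'' : SL(2, ℤ)) (x' : OnePoint (ZMod ℓ)),
      rep1 ℓ 1 x * mapGL ℝ g = mapGL ℝ g'' * rep1 ℓ 1 x' := by
  have hℓ1 : ¬ ℓ ∣ 1 := fun h => (Fact.out : ℓ.Prime).one_lt.ne' (Nat.dvd_one.mp h)
  obtain ⟨g'', -, h⟩ := rep1_mul (N := 1) hℓ1 (1 : SL(2, ℤ)) (by simp)
    (Subsingleton.elim _ _) g (mem_Gamma1_one g) x
  exact ⟨g'', _, h⟩

/-- the twisted representative is an `SL(2,ℤ)`-multiple of the untwisted one -/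
theorem exists_rep1_eq (σ : SL(2, ℤ)) (x : OnePoint (ZMod ℓ)) :
    ∃ σ' : SL(2, ℤ), rep1 ℓ σ x = mapGL ℝ σ' * rep1 ℓ 1 x := by
  induction x using OnePoint.rec with
  | infty => exact ⟨σ, by rw [rep1_infty, rep1_infty, map_one, one_mul]⟩
  | coe j => exact ⟨1, by rw [rep1_coe, rep1_coe, map_one, one_mul]⟩

/-- **moderate growth is preserved by the Hecke translates** -/
theorem moderateGrowth_comp_rep1 {N : ℕ} [NeZero N] (σ : SL(2, ℤ)) (x : OnePoint (ZMod ℓ))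
    {F : ℍ → ℂ} (hF : ModerateGrowth N F) :
    ModerateGrowth N fun z => F (rep1 ℓ σ x • z) := by
  intro g
  obtain ⟨σ', hσ'⟩ := exists_rep1_eq σ x
  obtain ⟨g'', x', hg''⟩ := rep1_one_mul g x
  obtain ⟨c, hc, hcim⟩ := exists_im_rep1_one_smul x'
  obtain ⟨m, hm⟩ := hF (σ' * g'')
  obtain ⟨m', hm'⟩ := exists_bdd_comp_of_im_eq hm hc (fun z => rep1 ℓ 1 x' • z) hcim
  refine ⟨m', ?_⟩
  have key : ∀ z : ℍ, rep1 ℓ σ x • (g • z) = (σ' * g'') • (rep1 ℓ 1 x' • z) := by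
    intro z
    have h1 : g • z = mapGL ℝ g • z := rfl
    have h2 : (σ' * g'') • (rep1 ℓ 1 x' • z) = mapGL ℝ (σ' * g'') • (rep1 ℓ 1 x' • z) := rfl
    rw [h1, h2, ← mul_smul, ← mul_smul, hσ', mul_assoc, hg'', map_mul, mul_assoc]
  simpa only [key] using hm'

end Rep

/-! ### The holomorphic Hecke norm -/

section NormHol

variable (ℓ : ℕ) [Fact ℓ.Prime] (σ : SL(2, ℤ))

/-- `A ↦ ∏ₓ A ∘ α_x` on holomorphic functions -/
def normHol (A : Hol) : Hol :=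
  ∏ x : OnePoint (ZMod ℓ), compGL (rep1 ℓ σ x) (det_rep1_pos σ x) A

theorem algebraMap_normHol (A : Hol) :
    algebraMap Hol Mer (normHol ℓ σ A) =
      normG (rep1 ℓ σ) (det_rep1_pos σ) (algebraMap Hol Mer A) := by
  rw [normHol, map_prod, normG_apply]
  exact Finset.prod_congr rfl fun x _ => (compMGL_algebraMap _ _ A).symm

theorem normHol_ne_zero {A : Hol} (hA : A ≠ 0) : normHol ℓ σ A ≠ 0 :=
  Finset.prod_ne_zero_iff.mpr fun x _ => compGL_ne_zero _ _ hA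

theorem moderateGrowth_normHol {N : ℕ} [NeZero N] {A : Hol}
    (hA : ModerateGrowth N (A : ℍ → ℂ)) : ModerateGrowth N (normHol ℓ σ A : ℍ → ℂ) := by
  have h : normHol ℓ σ A ∈ MG N := by
    rw [normHol]
    refine Subalgebra.prod_mem _ fun x _ => ?_
    exact moderateGrowth_comp_rep1 σ x hA
  exact h

end NormHol

end Fermat.Agent.DS.P3.HN1Q1
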