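/-
GATE-N / S48 J1-port, P3 leaf S48-P3-HN1Q1 (helper62), part 2: **the cusp expansion of the Hecke
norm** in helper94's `MerCE` calculus (`GJ/J2/TwistedEisCusp.lean`), `Γ`-free:

* `MerCE.period_nat`   : `MerCE 1 F L → MerCE ℓ F (L(q^ℓ))` (change of the local parameter);
* `MerCE.compMGL_diag` : `MerCE 1 F L → MerCE 1 (F ∘ diag(ℓ,1)) (L(q^ℓ))`;
* `MerCE.compMGL_heckeMatrix` : `MerCE 1 F L → MerCE ℓ (F ∘ [1 j; 0 ℓ]) (L(ξ^j s))`, `s = q^{1/ℓ}`;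
* `merCE_normG_rep1` : `MerCE 1 F L`, `MerCE 1 (F ∘ σ) L'` ⟹
  `MerCE ℓ (normG (rep1 ℓ σ) F) ((N_ℓ L · L'(q^ℓ))(q^ℓ))`, `N_ℓ = Kum.normL ℓ` the root-of-unity-free
  norm series of helper44.
-/
import Fermat.Agent.GJ.J2.TwistedEisCusp
import Fermat.Agent.S28.AnalyticInputCE
import Fermat.Agent.GJ.Kum.ZetaProd
import Fermat.Agent.DS.P3.HN1Q1.Growth

set_option autoImplicit false
set_option linter.unusedSectionVars false

open UpperHalfPlane Complex ModularForm ModularCurve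
open scoped MatrixGroups

noncomputable section

namespace Fermat.Agent.DS.P3.HN1Q1

open Fermat.Agent.S24_helper82 Fermat.Agent.GJ.HeckeMer Fermat.Agent.S28 Fermat.Agent.S28.MeroCusp
open Fermat.Agent.GJ.TwEis Fermat.Agent.DS.N0 Fermat.Agent.DS.P3.HeckeMerG
open Fermat.Agent.GJ.Kum (normL qExpand_normL_eq_prod)
open Matrix.SpecialLinearGroup

/-! ### Transfer of `MerCE` along an operation on `Hol` -/

/-- **transfer**: an operation `T` on `Hol` (with its extension `TM` to `Mer`) which maps functions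
meromorphic at the cusp (width `h`) to such functions (width `h'`) and acts on the expansions by the
ring homomorphism `Φ`, maps `MerCE h F L` to `MerCE h' (TM F) (Φ L)`. -/
theorem MerCE.transfer {h h' : ℝ} (T : Hol →+* Hol) (TM : Mer →+* Mer)
    (hT : ∀ a : Hol, TM (algebraMap Hol Mer a) = algebraMap Hol Mer (T a))
    (hT0 : ∀ b : Hol, b ≠ 0 → T b ≠ 0)
    (Φ : LaurentSeries ℂ →+* LaurentSeries ℂ)
    (hΦ : ∀ a : Hol, IsMeroCusp h (a : ℍ → ℂ) →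
      IsMeroCusp h' (T a : ℍ → ℂ) ∧ laurentExp h' (T a : ℍ → ℂ) = Φ (laurentExp h (a : ℍ → ℂ)))
    {F : Mer} {L : LaurentSeries ℂ} (hF : MerCE h F L) : MerCE h' (TM F) (Φ L) := by
  obtain ⟨a, b, hb, ham, hbm, hFe, hE⟩ := hF
  refine ⟨T a, T b, hT0 b hb, (hΦ a ham).1, (hΦ b hbm).1, ?_, ?_⟩
  · rw [← hT, ← hT, ← map_mul, hFe]
  · rw [(hΦ a ham).2, (hΦ b hbm).2, ← map_mul, hE]

theorem MerCE.prod {h : ℝ} (hh : 0 < h) {ι : Type*} (s : Finset ι) {F : ι → Mer}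
    {L : ι → LaurentSeries ℂ} (hF : ∀ i ∈ s, MerCE h (F i) (L i)) :
    MerCE h (∏ i ∈ s, F i) (∏ i ∈ s, L i) := by
  classical
  induction s using Finset.induction_on with
  | empty =>
    rw [Finset.prod_empty, Finset.prod_empty]
    exact MerCE.one hh
  | insert a s ha ih =>
    rw [Finset.prod_insert ha, Finset.prod_insert ha]
    exact (hF a (Finset.mem_insert_self a s)).mul hh
      (ih fun i hi => hF i (Finset.mem_insert_of_mem hi))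

section Ell

variable (ℓ : ℕ) [NeZero ℓ]

theorem ell_pos_real : (0 : ℝ) < (ℓ : ℝ) := Nat.cast_pos.mpr (NeZero.pos ℓ)

/-- **period change** `q ↦ s = q^{1/ℓ}` -/
theorem MerCE.period_nat {F : Mer} {L : LaurentSeries ℂ} (hF : MerCE 1 F L) :
    MerCE (ℓ : ℝ) F (qExpand ℂ ℓ L) := by
  have h := MerCE.transfer (h := 1) (h' := (ℓ : ℝ)) (RingHom.id Hol) (RingHom.id Mer)
    (fun _ => rfl) (fun _ hb => hb) (qExpand ℂ ℓ)
    (fun a ha => by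
      have hce : IsCE 1 (a : ℍ → ℂ) := (isMeroCusp_iff_isCE one_pos).mp ha
      have h1 : IsCE (ℓ : ℝ) (a : ℍ → ℂ) := hce.period_nat ℓ
      refine ⟨h1.isMeroCusp (ell_pos_real ℓ), ?_⟩
      show laurentExp (ℓ : ℝ) (a : ℍ → ℂ) = qExpand ℂ ℓ (laurentExp 1 (a : ℍ → ℂ))
      rw [h1.laurentExp_eq (ell_pos_real ℓ), cuspExp_period_nat hce ℓ,
        ha.laurentExp_eq_cuspExp one_pos]) hF
  exact h

/-- the expansion of `F(ℓ τ)` -/
theorem MerCE.compMGL_diag {F : Mer} {L : LaurentSeries ℂ} (hF : MerCE 1 F L) :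
    MerCE 1 (compMGL (heckeDiagMatrix ℓ) (det_heckeDiagMatrix_pos ℓ) F) (qExpand ℂ ℓ L) := by
  refine MerCE.transfer (h := 1) (h' := 1)
    (compGL (heckeDiagMatrix ℓ) (det_heckeDiagMatrix_pos ℓ)).toRingHom
    (compMGL (heckeDiagMatrix ℓ) (det_heckeDiagMatrix_pos ℓ))
    (fun a => compMGL_algebraMap _ _ a) (fun b hb => compGL_ne_zero _ _ hb) (qExpand ℂ ℓ)
    (fun a ha => ?_) hF
  have hce : IsCE 1 (a : ℍ → ℂ) := (isMeroCusp_iff_isCE one_pos).mp ha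
  have h := isCE_subst hce ℓ 0 1 1 ℓ one_pos one_pos (by ring) (1 : ℂˣ) (by simp)
    (fun τ => heckeDiagMatrix ℓ • τ)
    (fun τ => by rw [coe_heckeDiagMatrix_smul (NeZero.ne ℓ)]; simp)
  rw [cuspS_one, Nat.cast_one] at h
  have h1 : IsCE 1 ((compGL (heckeDiagMatrix ℓ) (det_heckeDiagMatrix_pos ℓ) a : Hol) : ℍ → ℂ) :=
    h.1
  refine ⟨h1.isMeroCusp one_pos, ?_⟩
  show laurentExp 1 ((compGL (heckeDiagMatrix ℓ) (det_heckeDiagMatrix_pos ℓ) a : Hol) : ℍ → ℂ)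
    = qExpand ℂ ℓ (laurentExp 1 (a : ℍ → ℂ))
  rw [h1.laurentExp_eq one_pos, ha.laurentExp_eq_cuspExp one_pos]
  exact h.2

/-- the primitive `ℓ`-th root of unity `exp(2πi/ℓ)` as a unit -/
def xiU : ℂˣ :=
  Units.mk0 (Complex.exp (2 * Real.pi * Complex.I / ℓ)) (Complex.exp_ne_zero _)

theorem coe_xiU : ((xiU ℓ : ℂˣ) : ℂ) = Complex.exp (2 * Real.pi * Complex.I / ℓ) := rfl

theorem isPrimitiveRoot_xiU : IsPrimitiveRoot ((xiU ℓ : ℂˣ) : ℂ) ℓ :=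
  Complex.isPrimitiveRoot_exp ℓ (NeZero.ne ℓ)

/-- the expansion of `F((τ + j)/ℓ)` in `s = q^{1/ℓ}` -/
theorem MerCE.compMGL_heckeMatrix (j : ℕ) {F : Mer} {L : LaurentSeries ℂ} (hF : MerCE 1 F L) :
    MerCE (ℓ : ℝ) (compMGL (heckeMatrix ℓ j) (det_heckeMatrix_pos ℓ j) F)
      (scaleHom ℂ (xiU ℓ ^ j) L) := by
  refine MerCE.transfer (h := 1) (h' := (ℓ : ℝ))
    (compGL (heckeMatrix ℓ j) (det_heckeMatrix_pos ℓ j)).toRingHom
    (compMGL (heckeMatrix ℓ j) (det_heckeMatrix_pos ℓ j))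
    (fun a => compMGL_algebraMap _ _ a) (fun b hb => compGL_ne_zero _ _ hb)
    (scaleHom ℂ (xiU ℓ ^ j))
    (fun a ha => ?_) hF
  have hℓ : 0 < ℓ := NeZero.pos ℓ
  have hℓ0 : (ℓ : ℂ) ≠ 0 := Nat.cast_ne_zero.mpr hℓ.ne'
  have hce : IsCE 1 (a : ℍ → ℂ) := (isMeroCusp_iff_isCE one_pos).mp ha
  have h := isCE_subst hce 1 j ℓ ℓ 1 hℓ hℓ (by ring) (xiU ℓ ^ j)
    (by
      rw [Units.val_pow_eq_pow_val, coe_xiU, ← Complex.exp_nat_mul]
      congr 1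
      field_simp)
    (fun τ => heckeMatrix ℓ j • τ)
    (fun τ => by rw [coe_heckeMatrix_smul (NeZero.ne ℓ)]; simp)
  rw [cuspS, RingHom.comp_apply, qExpand_one_apply] at h
  have h1 : IsCE (ℓ : ℝ)
      ((compGL (heckeMatrix ℓ j) (det_heckeMatrix_pos ℓ j) a : Hol) : ℍ → ℂ) := h.1
  refine ⟨h1.isMeroCusp (ell_pos_real ℓ), ?_⟩
  show laurentExp (ℓ : ℝ) ((compGL (heckeMatrix ℓ j) (det_heckeMatrix_pos ℓ j) a : Hol) : ℍ → ℂ)
    = scaleHom ℂ (xiU ℓ ^ j) (laurentExp 1 (a : ℍ → ℂ))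
  rw [h1.laurentExp_eq (ell_pos_real ℓ), ha.laurentExp_eq_cuspExp one_pos]
  exact h.2

theorem prod_zmod_val' {M : Type*} [CommMonoid M] (f : ℕ → M) :
    ∏ b : ZMod ℓ, f b.val = ∏ i ∈ Finset.range ℓ, f i := by
  obtain ⟨n, rfl⟩ : ∃ n, ℓ = n + 1 := Nat.exists_eq_succ_of_ne_zero (NeZero.ne ℓ)
  exact Fin.prod_univ_eq_prod_range f (n + 1)

/-- the expansion of the `U`-norm `∏_j F((τ + j)/ℓ)` -/
theorem MerCE.prod_compMGL_heckeMatrix {F : Mer} {L : LaurentSeries ℂ} (hF : MerCE 1 F L) :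
    MerCE (ℓ : ℝ) (∏ j : ZMod ℓ, compMGL (heckeMatrix ℓ j.val) (det_heckeMatrix_pos ℓ j.val) F)
      (qExpand ℂ ℓ (normL ℓ L)) := by
  have h := MerCE.prod (ell_pos_real ℓ) (Finset.univ : Finset (ZMod ℓ))
    (F := fun j : ZMod ℓ => compMGL (heckeMatrix ℓ j.val) (det_heckeMatrix_pos ℓ j.val) F)
    (L := fun j : ZMod ℓ => scaleHom ℂ (xiU ℓ ^ j.val) L)
    (fun j _ => MerCE.compMGL_heckeMatrix ℓ j.val hF)
  rw [prod_zmod_val' ℓ (fun b => scaleHom ℂ (xiU ℓ ^ b) L),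
    ← qExpand_normL_eq_prod ℓ (xiU ℓ) (isPrimitiveRoot_xiU ℓ) L] at h
  exact h

end Ell

section Rep

variable (ℓ : ℕ) [Fact ℓ.Prime] (σ : SL(2, ℤ))

/-- **the cusp expansion of the Hecke norm** along helper10's representatives `rep1 ℓ σ`:
in the variable `s = q^{1/ℓ}` it is `(N_ℓ L · L'(q^ℓ))(s^ℓ)`, where `L` is the expansion of `F` and
`L'` the expansion of `F ∘ σ`. -/
theorem merCE_normG_rep1 {F : Mer} {L L' : LaurentSeries ℂ} (hF : MerCE 1 F L)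
    (hF' : MerCE 1 (compM σ F) L') :
    haveI : NeZero ℓ := ⟨(Fact.out : ℓ.Prime).ne_zero⟩
    MerCE (ℓ : ℝ) (normG (rep1 ℓ σ) (det_rep1_pos σ) F)
      (qExpand ℂ ℓ (normL ℓ L * qExpand ℂ ℓ L')) := by
  haveI : NeZero ℓ := ⟨(Fact.out : ℓ.Prime).ne_zero⟩
  have hV : MerCE (ℓ : ℝ) (compMGL (rep1 ℓ σ OnePoint.infty) (det_rep1_pos σ OnePoint.infty) F)
      (qExpand ℂ ℓ (qExpand ℂ ℓ L')) := by
    have h1 := MerCE.period_nat ℓ (MerCE.compMGL_diag ℓ hF')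
    have h2 : compMGL (rep1 ℓ σ OnePoint.infty) (det_rep1_pos σ OnePoint.infty) F
        = compMGL (heckeDiagMatrix ℓ) (det_heckeDiagMatrix_pos ℓ) (compM σ F) := by
      rw [← compMGL_mapGL, ← compMGL_mul (det_mapGL_pos σ) (det_heckeDiagMatrix_pos ℓ)]
      exact compMGL_congr (rep1_infty ℓ σ) _ _ F
    rw [h2]
    exact h1
  have hU : MerCE (ℓ : ℝ)
      (∏ j : ZMod ℓ, compMGL (rep1 ℓ σ (j : OnePoint (ZMod ℓ)))
        (det_rep1_pos σ (j : OnePoint (ZMod ℓ))) F)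
      (qExpand ℂ ℓ (normL ℓ L)) := by
    have h1 := MerCE.prod_compMGL_heckeMatrix ℓ hF
    have h2 : (∏ j : ZMod ℓ, compMGL (rep1 ℓ σ (j : OnePoint (ZMod ℓ)))
        (det_rep1_pos σ (j : OnePoint (ZMod ℓ))) F)
        = ∏ j : ZMod ℓ, compMGL (heckeMatrix ℓ j.val) (det_heckeMatrix_pos ℓ j.val) F :=
      Finset.prod_congr rfl fun j _ => compMGL_congr (rep1_coe ℓ σ j) _ _ F
    rw [h2]
    exact h1
  have h3 : normG (rep1 ℓ σ) (det_rep1_pos σ) F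
      = compMGL (rep1 ℓ σ OnePoint.infty) (det_rep1_pos σ OnePoint.infty) F *
        ∏ j : ZMod ℓ, compMGL (rep1 ℓ σ (j : OnePoint (ZMod ℓ)))
          (det_rep1_pos σ (j : OnePoint (ZMod ℓ))) F := by
    rw [normG_apply]
    exact Fintype.prod_option
      (fun x : OnePoint (ZMod ℓ) => compMGL (rep1 ℓ σ x) (det_rep1_pos σ x) F)
  rw [h3, map_mul, mul_comm (qExpand ℂ ℓ (normL ℓ L))]
  exact hV.mul (ell_pos_real ℓ) hU

end Rep

end Fermat.Agent.DS.P3.HN1Q1
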