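/-
GATE-N / S48 J1-port, P3 leaf S48-P3-HN1Q1 (helper62), part 3: **(HN1Q1), `Γ`-generic.**

`real : F →+* Mer` a "function field of `Γ`" over `ℂ` with
* (PRES) every `real f` is a quotient of `Γ`-invariant holomorphic functions of moderate growth,
* (GEN)  `FieldGenHol Γ N real` (P1: every such holomorphic function is realised),
* (PERM) `Γ` permutes helper10's Hecke representatives `rep1 ℓ σ` (for `Γ₁(M)`: `rep1_mul`),
then the analytic Hecke norm `normG (rep1 ℓ σ) (real f)` is realised (`exists_real_eq_normG`).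
If moreover `F ⊆ ℂ((q))` and
* (EXP)  `MerCE 1 (real f) f` (the function of `f` has the expansion `f` at `i∞`),
the realising element is the series `N_ℓ(f) · g(q^ℓ)`, `real g = (real f) ∘ σ`
(`exists_real_eq_normG_coe`).  Finally, for `F = laurentBaseChange ℂ F₀` the statement descends to
every subfield `K ⊆ ℂ` of constants by helper84's coefficient descent
(`GJ/Desc/Retract.mem_range_bcHom_of_coeff_mem`): `exists_hecke_of_real`, and in the shapes of
helper17's `DS/P4/ESGen.HNMem1` and helper69's `DS/P5/KumType1.HNMem1` / helper94's `hHNT`.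
-/
import Fermat.Agent.DS.P3.HN1Q1.Expand
import Fermat.Agent.DS.P3.TwEisG.Field
import Fermat.Agent.GJ.Desc.Retract

set_option autoImplicit false
set_option linter.unusedSectionVars false

open UpperHalfPlane Complex ModularForm ModularCurve CongruenceSubgroup
open scoped MatrixGroups

noncomputable section

namespace Fermat.Agent.DS.P3.HN1Q1

open Fermat.Agent.S24_helper82 Fermat.Agent.GJ.HeckeMer Fermat.Agent.S28
open Fermat.Agent.GJ.TwEis Fermat.Agent.DS.N0 Fermat.Agent.DS.P3.HeckeMerG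
open Fermat.Agent.GJ.Dict.FieldGen Fermat.Agent.DS.P3.TwEisG
open Fermat.Agent.GJ.Kum (normL coeffMap_normL)
open Fermat.Agent.GJ.Desc (bcHom coe_bcHom mem_range_bcHom_of_coeff_mem)
open Matrix.SpecialLinearGroup

/-! ### The hypotheses -/

/-- `Γ`-invariant holomorphic functions of moderate growth at all cusps -/
def InvMG (Γ : Subgroup SL(2, ℤ)) (N : ℕ) (A : Hol) : Prop :=
  (∀ γ ∈ Γ, compSL γ A = A) ∧ ModerateGrowth N (A : ℍ → ℂ)

/-- **(PRES)** every realised function is a quotient of `Γ`-invariant holomorphic functions of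
moderate growth (twin of `GJ/J2/Dict/FieldGenCor.exists_IMG_div`). -/
def HasPres (Γ : Subgroup SL(2, ℤ)) (N : ℕ) {F : Type*} [Field F] (real : F →+* Mer) : Prop :=
  ∀ f : F, ∃ A B : Hol, B ≠ 0 ∧ InvMG Γ N A ∧ InvMG Γ N B ∧
    algebraMap Hol Mer B * real f = algebraMap Hol Mer A

/-- **(PERM)** `Γ` permutes the Hecke representatives `rep1 ℓ σ` up to left multiplication by `Γ`
(the hypothesis of helper49's `compM_normG_of_invariant`). -/
def HeckePerm (Γ : Subgroup SL(2, ℤ)) (ℓ : ℕ) (σ : SL(2, ℤ)) : Prop :=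
  ∀ γ : Γ, ∃ (π : Equiv.Perm (OnePoint (ZMod ℓ))) (t : OnePoint (ZMod ℓ) → Γ), ∀ x,
    rep1 ℓ σ x * mapGL ℝ (γ : SL(2, ℤ)) = mapGL ℝ ((t x : Γ) : SL(2, ℤ)) * rep1 ℓ σ (π x)

/-- (PERM) for `Γ₁(M)`, `ℓ ∤ M` prime, `σ ∈ Γ₀(M)` with lower right entry `≡ ℓ`: helper10's
`rep1_mul`. -/
theorem heckePerm_Gamma1 {M ℓ : ℕ} [Fact ℓ.Prime] (hℓM : ¬ ℓ ∣ M) (σ : SL(2, ℤ))
    (hσ0 : (M : ℤ) ∣ σ 1 0) (hσ1 : ((σ 1 1 : ℤ) : ZMod M) = (ℓ : ZMod M)) :
    HeckePerm (Gamma1 M) ℓ σ := by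
  intro γ
  choose g'' hg'' hmul using fun x => rep1_mul hℓM σ hσ0 hσ1 (γ : SL(2, ℤ)) γ.2 x
  exact ⟨MulAction.toPerm (redMat ℓ (γ : SL(2, ℤ))), fun x => ⟨g'' x, hg'' x⟩, fun x => hmul x⟩

/-! ### Membership -/

section Mem

variable {Γ : Subgroup SL(2, ℤ)} {N : ℕ} [NeZero N] {ℓ : ℕ} [Fact ℓ.Prime] {σ : SL(2, ℤ)}

/-- the holomorphic Hecke norm of a `Γ`-invariant function is `Γ`-invariant -/
theorem compSL_normHol (hperm : HeckePerm Γ ℓ σ) {A : Hol} (hA : ∀ γ ∈ Γ, compSL γ A = A)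
    (γ : SL(2, ℤ)) (hγ : γ ∈ Γ) : compSL γ (normHol ℓ σ A) = normHol ℓ σ A := by
  apply IsFractionRing.injective Hol Mer
  rw [← compM_algebraMap, algebraMap_normHol]
  obtain ⟨π, t, ht⟩ := hperm ⟨γ, hγ⟩
  exact compM_normG_of_invariant (Γ := Γ) (rep1 ℓ σ) (det_rep1_pos σ) (algebraMap Hol Mer A)
    (fun δ => by rw [compM_algebraMap, hA δ δ.2]) ⟨γ, hγ⟩ π t ht

theorem invMG_normHol (hperm : HeckePerm Γ ℓ σ) {A : Hol} (hA : InvMG Γ N A) :
    InvMG Γ N (normHol ℓ σ A) :=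
  ⟨fun γ hγ => compSL_normHol hperm hA.1 γ hγ, moderateGrowth_normHol ℓ σ hA.2⟩

variable {F : Type*} [Field F] {real : F →+* Mer}

/-- **(HN1Q1), membership**: the analytic Hecke norm of a realised function is realised. -/
theorem exists_real_eq_normG (hpres : HasPres Γ N real) (hgen : FieldGenHol Γ N real)
    (hperm : HeckePerm Γ ℓ σ) (f : F) :
    ∃ T : F, real T = normG (rep1 ℓ σ) (det_rep1_pos σ) (real f) := by
  obtain ⟨A, B, hB, hA', hB', hrel⟩ := hpres f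
  have hNA := invMG_normHol (N := N) hperm hA'
  have hNB := invMG_normHol (N := N) hperm hB'
  obtain ⟨Ta, hTa⟩ := hgen (normHol ℓ σ A) hNA.1 hNA.2
  obtain ⟨Tb, hTb⟩ := hgen (normHol ℓ σ B) hNB.1 hNB.2
  refine ⟨Ta / Tb, ?_⟩
  have hNB0 : algebraMap Hol Mer (normHol ℓ σ B) ≠ 0 :=
    algebraMap_ne_zero (normHol_ne_zero ℓ σ hB)
  have h1 := congrArg (normG (rep1 ℓ σ) (det_rep1_pos σ)) hrel
  rw [map_mul, ← algebraMap_normHol, ← algebraMap_normHol] at h1
  rw [map_div₀, hTa, hTb, div_eq_iff hNB0, ← h1, mul_comm]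

end Mem

/-! ### The series of the Hecke norm -/

section Series

variable {Γ : Subgroup SL(2, ℤ)} {N : ℕ} [NeZero N] {ℓ : ℕ} [Fact ℓ.Prime] {σ : SL(2, ℤ)}
  {FC : IntermediateField ℂ (LaurentSeries ℂ)} {real : FC →+* Mer}

/-- **(HN1Q1) over `ℂ`**: the Hecke norm `normG (rep1 ℓ σ) (real f)` is realised by the element of
`FC` whose series is `N_ℓ(f) · g(q^ℓ)`, where `g` realises `(real f) ∘ σ`. -/
theorem exists_real_eq_normG_coe (hpres : HasPres Γ N real) (hgen : FieldGenHol Γ N real)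
    (hperm : HeckePerm Γ ℓ σ)
    (hexp : ∀ f : FC, MerCE 1 (real f) (f : LaurentSeries ℂ))
    (f g : FC) (hg : real g = compM σ (real f)) :
    haveI : NeZero ℓ := ⟨(Fact.out : ℓ.Prime).ne_zero⟩
    ∃ T : FC, real T = normG (rep1 ℓ σ) (det_rep1_pos σ) (real f) ∧
      (T : LaurentSeries ℂ) = normL ℓ (f : LaurentSeries ℂ) * qExpand ℂ ℓ (g : LaurentSeries ℂ) := by
  haveI : NeZero ℓ := ⟨(Fact.out : ℓ.Prime).ne_zero⟩
  obtain ⟨T, hT⟩ := exists_real_eq_normG hpres hgen hperm f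
  refine ⟨T, hT, ?_⟩
  have h1 : MerCE (ℓ : ℝ) (real T) (qExpand ℂ ℓ (T : LaurentSeries ℂ)) :=
    MerCE.period_nat ℓ (hexp T)
  have h2 := merCE_normG_rep1 ℓ σ (hexp f) (hg ▸ hexp g)
  rw [← hT] at h2
  exact qExpand_injective ℓ (h1.unique (ell_pos_real ℓ) h2)

end Series

/-! ### Descent of the constants -/

section Descent

variable {Γ : Subgroup SL(2, ℤ)} {N : ℕ} [NeZero N] {ℓ : ℕ} [Fact ℓ.Prime] {σ : SL(2, ℤ)}
variable {K : Type*} [Field K] [Algebra ℚ K] [Algebra K ℂ] [IsScalarTower ℚ K ℂ]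
variable {F₀ : IntermediateField ℚ (LaurentSeries ℚ)}
  {realC : ↥(laurentBaseChange ℂ F₀) →+* Mer}

/-- **(HN1Q1)**, `Γ`-generic, over any field of constants `K ⊆ ℂ`: for `u v` in the function field
over `K` with `real v = (real u) ∘ σ` there is `T` in the function field over `K` with series
`N_ℓ(u) · v(q^ℓ)` whose realisation is the analytic Hecke norm of `real u`. -/
theorem exists_hecke_of_real (hpres : HasPres Γ N realC) (hgen : FieldGenHol Γ N realC)
    (hperm : HeckePerm Γ ℓ σ)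
    (hexp : ∀ f : ↥(laurentBaseChange ℂ F₀), MerCE 1 (realC f) (f : LaurentSeries ℂ))
    (u v : ↥(laurentBaseChange K F₀))
    (hv : realC (bcHom K ℂ F₀ v) = compM σ (realC (bcHom K ℂ F₀ u))) :
    haveI : NeZero ℓ := ⟨(Fact.out : ℓ.Prime).ne_zero⟩
    ∃ T : ↥(laurentBaseChange K F₀),
      (T : LaurentSeries K) = normL ℓ (u : LaurentSeries K) * qExpand K ℓ (v : LaurentSeries K) ∧
      realC (bcHom K ℂ F₀ T) =
        normG (rep1 ℓ σ) (det_rep1_pos σ) (realC (bcHom K ℂ F₀ u)) := by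
  haveI : NeZero ℓ := ⟨(Fact.out : ℓ.Prime).ne_zero⟩
  obtain ⟨Tc, hTc, hser⟩ := exists_real_eq_normG_coe hpres hgen hperm hexp
    (bcHom K ℂ F₀ u) (bcHom K ℂ F₀ v) hv
  have hser' : (Tc : LaurentSeries ℂ) = coeffMap (algebraMap K ℂ)
      (normL ℓ (u : LaurentSeries K) * qExpand K ℓ (v : LaurentSeries K)) := by
    rw [hser, coe_bcHom, coe_bcHom, map_mul, coeffMap_normL, coeffMap_qExpand]
  obtain ⟨T, hT⟩ := mem_range_bcHom_of_coeff_mem K ℂ F₀ Tc (fun n => by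
    rw [hser']
    exact ⟨_, rfl⟩)
  refine ⟨T, ?_, by rw [hT, hTc]⟩
  apply Fermat.Agent.GJ.Desc.coeffMap_injective (algebraMap K ℂ).injective
  rw [← hser', ← hT, coe_bcHom]

/-- the same with the diamond on the `U`-part (helper17's `heckeNorm1`, helper69's `hn1Series`):
for `u w` with `(real w) ∘ σ = real u` (`w = ⟨ℓ⟩⁻¹ u`) the series `u(q^ℓ) · N_ℓ(w)` lies in the
function field over `K` and is realised by the analytic Hecke norm of `real w`. -/
theorem exists_hecke1_of_real (hpres : HasPres Γ N realC) (hgen : FieldGenHol Γ N realC)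
    (hperm : HeckePerm Γ ℓ σ)
    (hexp : ∀ f : ↥(laurentBaseChange ℂ F₀), MerCE 1 (realC f) (f : LaurentSeries ℂ))
    (u w : ↥(laurentBaseChange K F₀))
    (hw : compM σ (realC (bcHom K ℂ F₀ w)) = realC (bcHom K ℂ F₀ u)) :
    haveI : NeZero ℓ := ⟨(Fact.out : ℓ.Prime).ne_zero⟩
    ∃ T : ↥(laurentBaseChange K F₀),
      (T : LaurentSeries K) = qExpand K ℓ (u : LaurentSeries K) * normL ℓ (w : LaurentSeries K) ∧
      realC (bcHom K ℂ F₀ T) =
        normG (rep1 ℓ σ) (det_rep1_pos σ) (realC (bcHom K ℂ F₀ w)) := by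
  haveI : NeZero ℓ := ⟨(Fact.out : ℓ.Prime).ne_zero⟩
  obtain ⟨T, hT, hr⟩ := exists_hecke_of_real hpres hgen hperm hexp w u hw.symm
  exact ⟨T, by rw [hT, mul_comm], hr⟩

end Descent

end Fermat.Agent.DS.P3.HN1Q1
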