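/-
GATE-N / S48 J1-port, P3 leaf S48-P3-HN1Q1 (helper62), part 4: the inputs **(PRES)** and **(EXP)** of
`HN1Q1/Main.lean` for helper30's generic realisation `RealizeGen.realG G hCE : FG G →ₐ[ℂ] Mer`
(`G : σ → Hol` any family of holomorphic functions with a cusp expansion at `i∞`):

* `merCE_realG`   : `MerCE 1 (realG G hCE f) f` for every `f ∈ FG G = ℂ(cuspExp 1 (G i))`;
* `hasPres_realG` : `HasPres Γ N (realG G hCE)` as soon as every `G i` is `Γ`-invariant of
  moderate growth;
* the same for `realOf G hCE hF` on any field `F = FG G` (e.g. `laurentBaseChange ℂ (F1 M)`).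
-/
import Fermat.Agent.DS.P3.HN1Q1.Main
import Fermat.Agent.DS.P1.RealizeGen

set_option autoImplicit false
set_option linter.unusedSectionVars false

open UpperHalfPlane Complex ModularForm ModularCurve CongruenceSubgroup
open scoped MatrixGroups

noncomputable section

namespace Fermat.Agent.DS.P3.HN1Q1

open Fermat.Agent.S24_helper82 Fermat.Agent.GJ.HeckeMer Fermat.Agent.S28
open Fermat.Agent.GJ.TwEis Fermat.Agent.GJ.Dict.FieldGen
open Fermat.Agent.DS.P1.RealizeGen

variable {σ : Type*} (G : σ → Hol)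

/-- every element of `FG G` is a quotient of polynomials in the generators -/
theorem exists_aeval_gen_div (f : FG G) : ∃ r s : MvPolynomial σ ℂ,
    f = MvPolynomial.aeval (gen G) r / MvPolynomial.aeval (gen G) s := by
  have hf : (f : LaurentSeries ℂ) ∈ IntermediateField.adjoin ℂ (Set.range (genSer G)) := f.2
  obtain ⟨r, s, hrs⟩ := (IntermediateField.mem_adjoin_range_iff ℂ (genSer G) _).mp hf
  refine ⟨r, s, Subtype.ext ?_⟩
  have hval : ∀ P : MvPolynomial σ ℂ,
      ((MvPolynomial.aeval (gen G) P : FG G) : LaurentSeries ℂ) =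
        MvPolynomial.aeval (genSer G) P := by
    intro P
    have := MvPolynomial.comp_aeval_apply (f := gen G) (FG G).val P
    exact this
  rw [hrs]
  show _ = ((FG G).val (MvPolynomial.aeval (gen G) r / MvPolynomial.aeval (gen G) s))
  rw [map_div₀]
  show _ = ((MvPolynomial.aeval (gen G) r : FG G) : LaurentSeries ℂ) /
    ((MvPolynomial.aeval (gen G) s : FG G) : LaurentSeries ℂ)
  rw [hval, hval]

theorem coe_aeval_gen (P : MvPolynomial σ ℂ) :
    ((MvPolynomial.aeval (gen G) P : FG G) : LaurentSeries ℂ) =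
      MvPolynomial.aeval (genSer G) P :=
  MvPolynomial.comp_aeval_apply (f := gen G) (FG G).val P

variable (hCE : ∀ i, IsCE 1 ((G i : Hol) : ℍ → ℂ))

/-- (EXP) for polynomial elements -/
theorem merCE_realG_aeval (P : MvPolynomial σ ℂ) :
    MerCE 1 (realG G hCE (MvPolynomial.aeval (gen G) P))
      ((MvPolynomial.aeval (gen G) P : FG G) : LaurentSeries ℂ) := by
  have hce : IsCE 1 ((MvPolynomial.aeval G P : Hol) : ℍ → ℂ) := by
    rw [coe_aeval_G]
    exact isCE_polyFnG G hCE P
  have h := MerCE.of_hol one_pos (MvPolynomial.aeval G P) (hce.isMeroCusp one_pos)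
  rw [hce.laurentExp_eq one_pos, coe_aeval_G, cuspExp_polyFnG G hCE, ← coe_aeval_gen,
    ← realG_aeval G hCE] at h
  exact h

/-- **(EXP)** for helper30's realisation: the function of `f` has the expansion `f` at `i∞`. -/
theorem merCE_realG (f : FG G) : MerCE 1 (realG G hCE f) (f : LaurentSeries ℂ) := by
  obtain ⟨r, s, rfl⟩ := exists_aeval_gen_div G f
  by_cases hs : MvPolynomial.aeval (gen G) s = 0
  · rw [hs, div_zero, map_zero]
    exact MerCE.zero one_pos
  · have h := (merCE_realG_aeval G hCE r).div one_pos (merCE_realG_aeval G hCE s)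
      ((map_ne_zero (realG G hCE)).mpr hs)
    rw [← map_div₀] at h
    have hc : ((MvPolynomial.aeval (gen G) r / MvPolynomial.aeval (gen G) s : FG G) :
        LaurentSeries ℂ) = ((MvPolynomial.aeval (gen G) r : FG G) : LaurentSeries ℂ) /
          ((MvPolynomial.aeval (gen G) s : FG G) : LaurentSeries ℂ) :=
      map_div₀ (FG G).val _ _
    rw [hc]
    exact h

/-- polynomial expressions in `Γ`-invariant generators of moderate growth are such -/
theorem invMG_aeval {Γ : Subgroup SL(2, ℤ)} {N : ℕ} [NeZero N] (hG : ∀ i, InvMG Γ N (G i))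
    (P : MvPolynomial σ ℂ) : InvMG Γ N (MvPolynomial.aeval G P) := by
  constructor
  · intro γ hγ
    have h := MvPolynomial.comp_aeval_apply (f := G) (compSL γ) P
    have hfun : (fun i => compSL γ (G i)) = G := funext fun i => (hG i).1 γ hγ
    rw [h, hfun]
  · have h : MvPolynomial.aeval G P ∈ Algebra.adjoin ℂ (Set.range G) := by
      rw [Algebra.adjoin_range_eq_range_aeval]
      exact ⟨P, rfl⟩
    exact Algebra.adjoin_le (S := MG N) (by rintro _ ⟨i, rfl⟩; exact (hG i).2) h

/-- **(PRES)** for helper30's realisation. -/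
theorem hasPres_realG {Γ : Subgroup SL(2, ℤ)} {N : ℕ} [NeZero N] (hG : ∀ i, InvMG Γ N (G i)) :
    HasPres Γ N (realG G hCE : FG G →+* Mer) := by
  intro f
  obtain ⟨r, s, rfl⟩ := exists_aeval_gen_div G f
  by_cases hs : MvPolynomial.aeval G s = 0
  · refine ⟨0, 1, one_ne_zero, ?_, ?_, ?_⟩
    · exact ⟨fun γ _ => map_zero _, moderateGrowth_const 0⟩
    · exact ⟨fun γ _ => map_one _, moderateGrowth_const 1⟩
    · show algebraMap Hol Mer 1 * realG G hCE _ = algebraMap Hol Mer 0
      rw [map_div₀, realG_aeval G hCE s, hs, map_zero, div_zero, mul_zero]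
  · refine ⟨MvPolynomial.aeval G r, MvPolynomial.aeval G s, hs, invMG_aeval G hG r,
      invMG_aeval G hG s, ?_⟩
    show algebraMap Hol Mer _ * realG G hCE _ = _
    rw [map_div₀, realG_aeval, realG_aeval, mul_div_cancel₀ _ (algebraMap_ne_zero hs)]

/-! ### On a field equal to `FG G` -/

section Of

variable {F : IntermediateField ℂ (LaurentSeries ℂ)} (hF : F = FG G)

theorem merCE_realOf (x : F) : MerCE 1 (realOf G hCE hF x) (x : LaurentSeries ℂ) := by
  rw [realOf_apply]
  exact merCE_realG G hCE ⟨(x : LaurentSeries ℂ), hF ▸ x.2⟩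

theorem hasPres_realOf {Γ : Subgroup SL(2, ℤ)} {N : ℕ} [NeZero N] (hG : ∀ i, InvMG Γ N (G i)) :
    HasPres Γ N (realOf G hCE hF : F →+* Mer) := by
  intro x
  obtain ⟨A, B, hB, hA', hB', h⟩ := hasPres_realG G hCE hG ⟨(x : LaurentSeries ℂ), hF ▸ x.2⟩
  exact ⟨A, B, hB, hA', hB', by rw [← h]; rfl⟩

end Of

end Fermat.Agent.DS.P3.HN1Q1
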